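/-
C1 nodal core, instantiation, block UR (owner helper248): transfer of the contracts from a good
base `(K₀, A₀ = A ∩ K₀)` (the inertia field) to `(ℚ̄, A)`.  Definitions.

* `Core A F F' w x' x n q` : the fields of `Contracts` which are proved over the discrete valuation
  ring `A₀` of the good base and then transferred to `ℚ̄` (`Ur.ofUr`).
* `Hyp A K₀ G G' q`        : the standing hypotheses of the transfer.
-/
import Fermat.Agent.Lib.UrBase.Defs
import Fermat.Agent.S34.Nodal.Inst.Contracts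

set_option autoImplicit false

noncomputable section

namespace Fermat.Agent.S34.Nodal.Inst.Ur

open ModularCurve Fermat.Agent.S18.Descent Fermat.Agent.S18.Vert Fermat.Agent.Lib.UrBase Polynomial

local notation "Qbar" => AlgebraicClosure ℚ

section Core

variable {K : Type*} [Field K] (A : ValuationSubring K)
variable (F F' : IntermediateField K (LaurentSeries K)) (w : F ≃ₐ[K] F)

/-- The transferable part of `Contracts` (same fields, same names). -/
structure Core (x' : F') (x : F) (n q : ℕ) where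
  npos : 0 < n
  two_le : 2 ≤ q
  x_ne : x ≠ 0
  x_mem : x ∈ OO A F w
  xinv_mem : x⁻¹ ∈ OO A F w
  red_chart1 : ∀ y : OO A F w, (y : F) ∈ chart A F w x →
    (red2 A F w y).1 ∈ bb A F' x' ∧ (red2 A F w y).2 ∈ bb A F' x'
  red_chart2 : ∀ y : OO A F w, (y : F) ∈ chart A F w x⁻¹ →
    (red2 A F w y).1 ∈ bb A F' x'⁻¹ ∧ (red2 A F w y).2 ∈ bb A F' x'⁻¹
  int1 : ∀ y : gaussSubring A F, rho A F y ^ n ∈ bb A F' x' → rho A F y ∈ bb A F' x'
  int2 : ∀ y : gaussSubring A F, rho A F y ^ n ∈ bb A F' x'⁻¹ → rho A F y ∈ bb A F' x'⁻¹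
  Fr2 : bb A F' x' →+* bb A F' x'
  ψ : bb A F' x' →+* bb A F' x'
  Fr2_eq : ∀ f, Fr2 f = ψ f ^ (q ^ 2)
  xb : bb A F' x'
  Fr2_xb : Fr2 xb = xb ^ (q ^ 2)
  fin_b1 : ∃ S : Finset (bb A F' x'), ∀ y : bb A F' x',
    y ∈ Submodule.span (kk A) {z : bb A F' x' | ∃ g ∈ S, ∃ a : ℕ, z = xb ^ a * g}
  proj1 : ∀ c : bb A F' x', ∃ y : OO A F w, (y : F) ∈ chart A F w x ∧ (red2 A F w y).1 = c
  proj2 : ∀ c : bb A F' x', ∃ y : OO A F w, (y : F) ∈ chart A F w x ∧ (red2 A F w y).2 = c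
  gen1 : ∀ f : bb A F' x', ∃ y : OO A F w, (y : F) ∈ chart A F w x ∧
    red2 A F w y = (((f - Fr2 f : bb A F' x') : LaurentSeries (kk A)), 0)
  gen2 : ∀ f : bb A F' x', ∃ y : OO A F w, (y : F) ∈ chart A F w x ∧
    red2 A F w y = (0, ((f - Fr2 f : bb A F' x') : LaurentSeries (kk A)))
  exhaust : ∀ b ∈ chart A F w x, ∃ e : ℕ, x⁻¹ ^ e * b ∈ chart A F w x⁻¹
  hH1 : ∃ c : ℕ, ∀ z ∈ chartMid A F w x, ∃ z1 ∈ chart A F w x, ∃ z2 ∈ chart A F w x⁻¹,
    z = z1 + x ^ c * z2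
  hcond2 : ∃ P : (kk A)[X], P.eval 0 ≠ 0 ∧
    ∀ v : Om A, v.1 ∈ bb A F' x'⁻¹ → v.2 ∈ bb A F' x'⁻¹ →
      ∃ y : OO A F w, (y : F) ∈ chart A F w x⁻¹ ∧
        red2 A F w y = aeval (red2 A F w ⟨x⁻¹, xinv_mem⟩) P * v

end Core

variable (A : ValuationSubring Qbar) (K₀ : IntermediateField ℚ Qbar)
variable (G G' : IntermediateField ℚ (LaurentSeries ℚ))

/-- The standing hypotheses of the transfer. -/
structure Hyp (q : ℕ) : Prop where
  prime : q.Prime
  lies : A.LiesOverPrime q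
  base : GoodBase A K₀
  dvr : IsDiscreteValuationRing (restrict A K₀)
  quot : IsQuot (restrict A K₀) (laurentBaseChange K₀ G)
  quot' : IsQuot (restrict A K₀) (laurentBaseChange K₀ G')

/-- The map `k₀((t)) → k((t))`. -/
abbrev io : LaurentSeries (kk (restrict A K₀)) →+* LaurentSeries (kk A) :=
  coeffMap (residueMap A K₀)

end Fermat.Agent.S34.Nodal.Inst.Ur

end
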