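/-
C1 nodal core, instantiation, block UR-TRANSFER (architect helper248), task URT-1 (helper226):
membership of `ω`-combinations in `OO`, `chart`, `chartMid`, `chart'`.
-/
import Fermat.Agent.Lib.UrBase.Good
import Fermat.Agent.Lib.UrBase.Integral
import Fermat.Agent.Lib.UrBase.Gauss
import Fermat.Agent.S34.Nodal.Inst.Ur.Defs

set_option autoImplicit false

noncomputable section

namespace Fermat.Agent.S34.Nodal.Inst.Ur

open ModularCurve Fermat.Agent.S18.Descent Fermat.Agent.S18.Vert Fermat.Agent.Lib.UrBase Polynomial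

local notation "Qbar" => AlgebraicClosure ℚ

variable {A : ValuationSubring Qbar} {K₀ : IntermediateField ℚ Qbar}
variable {G G' : IntermediateField ℚ (LaurentSeries ℚ)}
variable {e : ℕ} {ω : Fin e → Qbar} {q : ℕ}
variable {w : laurentBaseChange Qbar G ≃ₐ[Qbar] laurentBaseChange Qbar G}
variable {wu : laurentBaseChange K₀ G ≃ₐ[K₀] laurentBaseChange K₀ G}

/-! ### URT-1 `Mem.lean` : membership of combinations -/

theorem residueMap_bijective (H : Hyp A K₀ G G' q) : Function.Bijective (residueMap A K₀) := by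
  refine ⟨residueMap_injective A K₀, fun c => ?_⟩
  obtain ⟨a, rfl⟩ := IsLocalRing.residue_surjective c
  obtain ⟨a₀, ha₀⟩ := H.base.surj a a.2
  have hdiff : (a : Qbar) - (a₀ : Qbar) ∈ A := A.nonunits_subset ha₀
  have ha₀A : (a₀ : Qbar) ∈ A := by
    have h1 : (a₀ : Qbar) = (a : Qbar) - ((a : Qbar) - (a₀ : Qbar)) := by ring
    rw [h1]
    exact A.sub_mem a.2 hdiff
  refine ⟨IsLocalRing.residue (restrict A K₀) ⟨a₀, ha₀A⟩, ?_⟩
  have h2 : residueMap A K₀ (IsLocalRing.residue (restrict A K₀) ⟨a₀, ha₀A⟩) =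
      IsLocalRing.residue A (restrictHom A K₀ ⟨a₀, ha₀A⟩) := rfl
  rw [h2, eq_comm, ← sub_eq_zero, ← map_sub, IsLocalRing.residue_eq_zero_iff,
    ValuationSubring.valuation_lt_one_iff]
  exact A.mem_nonunits_iff.mp ha₀

theorem w_comb (hw : ∀ z, w (toBar G K₀ z) = toBar G K₀ (wu z))
    (c : Fin e → laurentBaseChange K₀ G) : w (comb K₀ G ω c) = comb K₀ G ω fun j => wu (c j) := by
  unfold comb
  rw [map_sum]
  refine Finset.sum_congr rfl fun j _ => ?_
  rw [map_mul, AlgEquiv.commutes, hw]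

theorem Hyp.linearIndependent (H : Hyp A K₀ G G' q) (hω : IsGood A K₀ ω) :
    LinearIndependent K₀ ω := by
  refine hω.linearIndependent ⟨(q : K₀)⁻¹, fun h => ?_⟩
  have h1 : (q : Qbar) ∈ A.nonunits := H.lies
  rw [A.mem_nonunits_iff] at h1
  have h2 : A.valuation (((q : K₀)⁻¹ : K₀) : Qbar) ≤ 1 := (A.valuation_le_one_iff _).mpr h
  have h3 : (((q : K₀)⁻¹ : K₀) : Qbar) * (q : Qbar) = 1 := by
    have hq0 : (q : Qbar) ≠ 0 := Nat.cast_ne_zero.mpr H.prime.ne_zero
    push_cast
    exact inv_mul_cancel₀ hq0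
  have h4 : A.valuation ((((q : K₀)⁻¹ : K₀) : Qbar) * (q : Qbar)) < 1 := by
    rw [map_mul, mul_comm]
    exact mul_lt_one_of_nonneg_of_lt_one_left zero_le h1 h2
  rw [h3, map_one] at h4
  exact lt_irrefl _ h4

theorem comb_mem_chart'_iff (H : Hyp A K₀ G G' q) (hω : IsGood A K₀ ω)
    (x : laurentBaseChange K₀ G') (c : Fin e → laurentBaseChange K₀ G') :
    comb K₀ G' ω c ∈ chart' A (laurentBaseChange Qbar G') (toBar G' K₀ x) ↔
      ∀ j, c j ∈ chart' (restrict A K₀) (laurentBaseChange K₀ G') x := by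
  have := H.dvr
  have h1 := comb_mem_gauss_iff H.quot' H.prime H.lies hω c
  have h2 := isIntegral_comb_iff (F₀ := G') (H.linearIndependent hω) {x} c
  rw [Set.image_singleton] at h2
  simp only [mem_chart']
  rw [h1, h2, forall_and]

theorem comb_mem_OO_iff (H : Hyp A K₀ G G' q) (hω : IsGood A K₀ ω)
    (hw : ∀ z, w (toBar G K₀ z) = toBar G K₀ (wu z)) (c : Fin e → laurentBaseChange K₀ G) :
    comb K₀ G ω c ∈ OO A (laurentBaseChange Qbar G) w ↔
      ∀ j, c j ∈ OO (restrict A K₀) (laurentBaseChange K₀ G) wu := by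
  have := H.dvr
  have h1 := comb_mem_gauss_iff H.quot H.prime H.lies hω c
  have h2 := comb_mem_gauss_iff H.quot H.prime H.lies hω fun j => wu (c j)
  simp only [mem_OO]
  rw [w_comb hw, h1, h2, forall_and]

theorem comb_mem_chart_iff (H : Hyp A K₀ G G' q) (hω : IsGood A K₀ ω)
    (hw : ∀ z, w (toBar G K₀ z) = toBar G K₀ (wu z))
    (x : laurentBaseChange K₀ G) (c : Fin e → laurentBaseChange K₀ G) :
    comb K₀ G ω c ∈ chart A (laurentBaseChange Qbar G) w (toBar G K₀ x) ↔
      ∀ j, c j ∈ chart (restrict A K₀) (laurentBaseChange K₀ G) wu x := by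
  have h1 := comb_mem_OO_iff H hω hw c
  have h2 := isIntegral_comb_iff (F₀ := G) (H.linearIndependent hω) {x} c
  rw [Set.image_singleton] at h2
  simp only [mem_chart]
  rw [h1, h2, forall_and]

theorem comb_mem_chartMid_iff (H : Hyp A K₀ G G' q) (hω : IsGood A K₀ ω)
    (hw : ∀ z, w (toBar G K₀ z) = toBar G K₀ (wu z))
    (x : laurentBaseChange K₀ G) (c : Fin e → laurentBaseChange K₀ G) :
    comb K₀ G ω c ∈ chartMid A (laurentBaseChange Qbar G) w (toBar G K₀ x) ↔
      ∀ j, c j ∈ chartMid (restrict A K₀) (laurentBaseChange K₀ G) wu x := by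
  have h1 := comb_mem_OO_iff H hω hw c
  have h2 := isIntegral_comb_iff (F₀ := G) (H.linearIndependent hω) {x, x⁻¹} c
  rw [Set.image_pair, map_inv₀] at h2
  simp only [mem_chartMid]
  rw [h1, h2, forall_and]

end Fermat.Agent.S34.Nodal.Inst.Ur

end
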