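/-
C1 nodal core, instantiation, block UR-TRANSFER, node URT-2: the case of one element.
-/
import Fermat.Agent.Lib.UrBase.GaussBasic
import Fermat.Agent.Lib.UrBase.Span
import Fermat.Agent.S34.Nodal.Inst.Ur.Mem

set_option autoImplicit false

noncomputable section

namespace Fermat.Agent.S34.Nodal.Inst.Ur

open ModularCurve Fermat.Agent.S18.Descent Fermat.Agent.S18.Vert Fermat.Agent.Lib.UrBase Polynomial

local notation "Qbar" => AlgebraicClosure ℚ

variable {A : ValuationSubring Qbar} {K₀ : IntermediateField ℚ Qbar}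
variable {G G' : IntermediateField ℚ (LaurentSeries ℚ)}
variable {e : ℕ} {ω : Fin e → Qbar} {q : ℕ}
variable {w : laurentBaseChange Qbar G ≃ₐ[Qbar] laurentBaseChange Qbar G}
variable {wu : laurentBaseChange K₀ G ≃ₐ[K₀] laurentBaseChange K₀ G}

/-! ### integrality -/

theorem ToBar.mem_adjoin (G : IntermediateField ℚ (LaurentSeries ℚ))
    (X : Set (laurentBaseChange K₀ G)) {z : laurentBaseChange K₀ G}
    (hz : z ∈ Algebra.adjoin K₀ X) : toBar G K₀ z ∈ Algebra.adjoin Qbar (toBar G K₀ '' X) := by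
  induction hz using Algebra.adjoin_induction with
  | mem z hz => exact Algebra.subset_adjoin ⟨z, hz, rfl⟩
  | algebraMap r =>
    rw [toBar_algebraMap]
    exact Subalgebra.algebraMap_mem _ _
  | add a b _ _ ha hb =>
    rw [map_add]
    exact add_mem ha hb
  | mul a b _ _ ha hb =>
    rw [map_mul]
    exact mul_mem ha hb

theorem ToBar.isIntegral (G : IntermediateField ℚ (LaurentSeries ℚ))
    (X : Set (laurentBaseChange K₀ G)) {y : laurentBaseChange K₀ G}
    (hy : IsIntegral (Algebra.adjoin K₀ X) y) :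
    IsIntegral (Algebra.adjoin Qbar (toBar G K₀ '' X)) (toBar G K₀ y) := by
  let φ : Algebra.adjoin K₀ X →+* Algebra.adjoin Qbar (toBar G K₀ '' X) :=
    ((toBar G K₀).comp (Algebra.adjoin K₀ X).val.toRingHom).codRestrict
      (Algebra.adjoin Qbar (toBar G K₀ '' X)).toSubring (fun z => ToBar.mem_adjoin G X z.2)
  exact IsIntegral.map_of_comp_eq φ (toBar G K₀) (by ext z; rfl) hy

theorem ToBar.isIntegral_singleton (G : IntermediateField ℚ (LaurentSeries ℚ))
    {x y : laurentBaseChange K₀ G} (hy : IsIntegral (Algebra.adjoin K₀ {x}) y) :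
    IsIntegral (Algebra.adjoin Qbar {toBar G K₀ x}) (toBar G K₀ y) := by
  have := ToBar.isIntegral G {x} hy
  rwa [Set.image_singleton] at this

/-! ### URT-2 `ToBar.lean` : the case of one element -/

theorem toBar_mem_chart' {x y : laurentBaseChange K₀ G'}
    (hy : y ∈ chart' (restrict A K₀) (laurentBaseChange K₀ G') x) :
    toBar G' K₀ y ∈ chart' A (laurentBaseChange Qbar G') (toBar G' K₀ x) :=
  mem_chart'.mpr ⟨toBar_mem_gauss (mem_chart'.mp hy).1,
    ToBar.isIntegral_singleton G' (mem_chart'.mp hy).2⟩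

theorem toBar_mem_OO (hw : ∀ z, w (toBar G K₀ z) = toBar G K₀ (wu z))
    {y : laurentBaseChange K₀ G} (hy : y ∈ OO (restrict A K₀) (laurentBaseChange K₀ G) wu) :
    toBar G K₀ y ∈ OO A (laurentBaseChange Qbar G) w := by
  refine mem_OO.mpr ⟨toBar_mem_gauss (mem_OO.mp hy).1, ?_⟩
  rw [hw]
  exact toBar_mem_gauss (mem_OO.mp hy).2

theorem toBar_mem_chart (hw : ∀ z, w (toBar G K₀ z) = toBar G K₀ (wu z))
    {x y : laurentBaseChange K₀ G}
    (hy : y ∈ chart (restrict A K₀) (laurentBaseChange K₀ G) wu x) :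
    toBar G K₀ y ∈ chart A (laurentBaseChange Qbar G) w (toBar G K₀ x) :=
  mem_chart.mpr ⟨toBar_mem_OO hw (mem_chart.mp hy).1,
    ToBar.isIntegral_singleton G (mem_chart.mp hy).2⟩

theorem red2_toBar (hw : ∀ z, w (toBar G K₀ z) = toBar G K₀ (wu z))
    (y : OO (restrict A K₀) (laurentBaseChange K₀ G) wu) :
    red2 A (laurentBaseChange Qbar G) w ⟨toBar G K₀ y, toBar_mem_OO hw y.2⟩ =
      (io A K₀ (red2 (restrict A K₀) (laurentBaseChange K₀ G) wu y).1,
        io A K₀ (red2 (restrict A K₀) (laurentBaseChange K₀ G) wu y).2) := by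
  have h1 := rho_toBar (A := A) (⟨(y : laurentBaseChange K₀ G), y.2.1⟩ :
    gaussSubring (restrict A K₀) (laurentBaseChange K₀ G))
  have h2 := rho_toBar (A := A) (⟨wu y, y.2.2⟩ :
    gaussSubring (restrict A K₀) (laurentBaseChange K₀ G))
  have e2 : (⟨w (toBar G K₀ y), (toBar_mem_OO hw y.2).2⟩ :
      gaussSubring A (laurentBaseChange Qbar G)) =
      ⟨toBar G K₀ (wu y), toBar_mem_gauss y.2.2⟩ := Subtype.ext (hw y)
  refine Prod.ext ?_ ?_
  · refine (red2_fst _).trans (h1.trans ?_)
    exact congrArg (io A K₀) (red2_fst y).symm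
  · refine (red2_snd _).trans ((congrArg _ e2).trans (h2.trans ?_))
    exact congrArg (io A K₀) (red2_snd y).symm

/-- replacing the `ω j` by constants of `K₀` with the same residues does not change the
reduction. -/
theorem ToBar.rho_comb_eq (hω : IsGood A K₀ ω) (a : Fin e → K₀)
    (ha : ∀ j, ω j - (a j : Qbar) ∈ A.nonunits) (c : Fin e → laurentBaseChange K₀ G)
    (hc : ∀ j, c j ∈ gaussSubring (restrict A K₀) (laurentBaseChange K₀ G))
    (hmem : comb K₀ G ω c ∈ gaussSubring A (laurentBaseChange Qbar G))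
    (hmem₀ : ∑ j, algebraMap K₀ (laurentBaseChange K₀ G) (a j) * c j ∈
      gaussSubring (restrict A K₀) (laurentBaseChange K₀ G)) :
    rho A (laurentBaseChange Qbar G) ⟨comb K₀ G ω c, hmem⟩ =
      io A K₀ (rho (restrict A K₀) (laurentBaseChange K₀ G)
        ⟨∑ j, algebraMap K₀ (laurentBaseChange K₀ G) (a j) * c j, hmem₀⟩) := by
  have haA : ∀ j, a j ∈ restrict A K₀ := by
    intro j
    rw [mem_restrict]
    have h1 : (a j : Qbar) = ω j - (ω j - (a j : Qbar)) := by ring
    rw [h1]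
    exact A.sub_mem (hω.mem j) (A.nonunits_subset (ha j))
  have e1 : (⟨∑ j, algebraMap K₀ (laurentBaseChange K₀ G) (a j) * c j, hmem₀⟩ :
      gaussSubring (restrict A K₀) (laurentBaseChange K₀ G)) =
      ∑ j, (⟨algebraMap K₀ (laurentBaseChange K₀ G) (a j),
          algebraMap_mem_gauss (restrict A K₀) (laurentBaseChange K₀ G) ⟨a j, haA j⟩⟩ :
            gaussSubring (restrict A K₀) (laurentBaseChange K₀ G)) * ⟨c j, hc j⟩ := by
    apply Subtype.ext
    rw [AddSubmonoidClass.coe_finsetSum]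
    rfl
  rw [rho_comb hω c hc hmem, e1, map_sum, map_sum]
  refine Finset.sum_congr rfl fun j _ => ?_
  rw [map_mul, map_mul]
  congr 1
  have h2 := rho_algebraMap (restrict A K₀) (laurentBaseChange K₀ G) ⟨a j, haA j⟩
  rw [h2]
  have h3 : io A K₀ (algebraMap (kk (restrict A K₀)) (LaurentSeries (kk (restrict A K₀)))
      (IsLocalRing.residue (restrict A K₀) ⟨a j, haA j⟩)) =
      algebraMap (kk A) (LaurentSeries (kk A))
        (residueMap A K₀ (IsLocalRing.residue (restrict A K₀) ⟨a j, haA j⟩)) := by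
    rw [algebraMap_laurentSeries_eq_single, algebraMap_laurentSeries_eq_single, coeffMap_single]
  rw [h3]
  congr 1
  have h4 : residueMap A K₀ (IsLocalRing.residue (restrict A K₀) ⟨a j, haA j⟩) =
      IsLocalRing.residue A (restrictHom A K₀ ⟨a j, haA j⟩) := rfl
  rw [h4, ← sub_eq_zero, ← map_sub, IsLocalRing.residue_eq_zero_iff]
  obtain ⟨h5, h6⟩ := ValuationSubring.mem_nonunits_iff_exists_mem_maximalIdeal.mp (ha j)
  exact h6

/-- constants of `A₀` lie in every chart. -/
theorem ToBar.algebraMap_mem_chart (x : laurentBaseChange K₀ G) (a : restrict A K₀) :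
    algebraMap K₀ (laurentBaseChange K₀ G) (a : K₀) ∈
      chart (restrict A K₀) (laurentBaseChange K₀ G) wu x := by
  refine mem_chart.mpr ⟨mem_OO.mpr ⟨algebraMap_mem_gauss _ _ a, ?_⟩, ?_⟩
  · rw [AlgEquiv.commutes]
    exact algebraMap_mem_gauss _ _ a
  · have : algebraMap K₀ (laurentBaseChange K₀ G) (a : K₀) =
        algebraMap (Algebra.adjoin K₀ {x}) (laurentBaseChange K₀ G)
          (algebraMap K₀ (Algebra.adjoin K₀ {x}) (a : K₀)) := rfl
    rw [this]
    exact isIntegral_algebraMap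

/-- every element of a chart over `ℚ̄` has the same reductions as an element of the chart over
`K₀`. -/
theorem exists_red2_eq (H : Hyp A K₀ G G' q) (hw : ∀ z, w (toBar G K₀ z) = toBar G K₀ (wu z))
    (x : laurentBaseChange K₀ G) (y : OO A (laurentBaseChange Qbar G) w)
    (hy : (y : laurentBaseChange Qbar G) ∈ chart A (laurentBaseChange Qbar G) w (toBar G K₀ x)) :
    ∃ y₀ : OO (restrict A K₀) (laurentBaseChange K₀ G) wu,
      (y₀ : laurentBaseChange K₀ G) ∈ chart (restrict A K₀) (laurentBaseChange K₀ G) wu x ∧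
      red2 A (laurentBaseChange Qbar G) w y =
        (io A K₀ (red2 (restrict A K₀) (laurentBaseChange K₀ G) wu y₀).1,
          io A K₀ (red2 (restrict A K₀) (laurentBaseChange K₀ G) wu y₀).2) := by
  obtain ⟨e, ω, hω, hS⟩ := exists_comb H.base {(y : laurentBaseChange Qbar G)}
  obtain ⟨c, hc⟩ := hS y (Finset.mem_singleton_self _)
  have hcc : ∀ j, c j ∈ chart (restrict A K₀) (laurentBaseChange K₀ G) wu x :=
    (comb_mem_chart_iff H hω hw x c).mp (hc ▸ hy)
  choose a ha using fun j => H.base.surj (ω j) (hω.mem j)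
  have haA : ∀ j, a j ∈ restrict A K₀ := by
    intro j
    rw [mem_restrict]
    have h1 : (a j : Qbar) = ω j - (ω j - (a j : Qbar)) := by ring
    rw [h1]
    exact A.sub_mem (hω.mem j) (A.nonunits_subset (ha j))
  have hy₀ : ∑ j, algebraMap K₀ (laurentBaseChange K₀ G) (a j) * c j ∈
      chart (restrict A K₀) (laurentBaseChange K₀ G) wu x :=
    Subring.sum_mem _ fun j _ => Subring.mul_mem _
      (ToBar.algebraMap_mem_chart x ⟨a j, haA j⟩) (hcc j)
  refine ⟨⟨_, (mem_chart.mp hy₀).1⟩, hy₀, Prod.ext ?_ ?_⟩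
  · rw [red2_fst, red2_fst]
    have h1 : comb K₀ G ω c ∈ gaussSubring A (laurentBaseChange Qbar G) := hc ▸ y.2.1
    have e1 : (⟨(y : laurentBaseChange Qbar G), y.2.1⟩ :
        gaussSubring A (laurentBaseChange Qbar G)) = ⟨comb K₀ G ω c, h1⟩ := Subtype.ext hc
    rw [e1]
    exact ToBar.rho_comb_eq hω a ha c (fun j => (mem_chart.mp (hcc j)).1.1) h1 _
  · rw [red2_snd, red2_snd]
    have hwy : w (y : laurentBaseChange Qbar G) = comb K₀ G ω fun j => wu (c j) := by
      rw [hc, w_comb hw]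
    have h1 : (comb K₀ G ω fun j => wu (c j)) ∈ gaussSubring A (laurentBaseChange Qbar G) :=
      hwy ▸ y.2.2
    have hwu : wu (∑ j, algebraMap K₀ (laurentBaseChange K₀ G) (a j) * c j) =
        ∑ j, algebraMap K₀ (laurentBaseChange K₀ G) (a j) * wu (c j) := by
      rw [map_sum]
      refine Finset.sum_congr rfl fun j _ => ?_
      rw [map_mul, AlgEquiv.commutes]
    have h2 : ∑ j, algebraMap K₀ (laurentBaseChange K₀ G) (a j) * wu (c j) ∈
        gaussSubring (restrict A K₀) (laurentBaseChange K₀ G) :=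
      hwu ▸ (mem_chart.mp hy₀).1.2
    have e1 : (⟨w (y : laurentBaseChange Qbar G), y.2.2⟩ :
        gaussSubring A (laurentBaseChange Qbar G)) = ⟨comb K₀ G ω fun j => wu (c j), h1⟩ :=
      Subtype.ext hwy
    rw [e1]
    refine Eq.trans (ToBar.rho_comb_eq hω a ha (fun j => wu (c j))
      (fun j => (mem_chart.mp (hcc j)).1.2) h1 h2) ?_
    exact congrArg (fun z => io A K₀ (rho (restrict A K₀) (laurentBaseChange K₀ G) z))
      (Subtype.ext hwu.symm)

end Fermat.Agent.S34.Nodal.Inst.Ur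

end
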