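/-
C1 nodal core, instantiation, block UR-TRANSFER (architect helper248), node URT-3 (helper126):
the reduction `bb` of the chart of level `M` over `ℚ̄` is the image of the one over the good base
`K₀`; the ring isomorphism `bbEquiv`; transfer of the finiteness statement.
-/
import Fermat.Agent.S34.Nodal.Inst.Ur.ToBar

set_option autoImplicit false

noncomputable section

namespace Fermat.Agent.S34.Nodal.Inst.Ur

open ModularCurve Fermat.Agent.S18.Descent Fermat.Agent.S18.Vert Fermat.Agent.Lib.UrBase Polynomial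

local notation "Qbar" => AlgebraicClosure ℚ

variable {A : ValuationSubring Qbar} {K₀ : IntermediateField ℚ Qbar}
variable {G G' : IntermediateField ℚ (LaurentSeries ℚ)}
variable {e : ℕ} {ω : Fin e → Qbar} {q : ℕ}

/-! ### URT-3 `BB.lean` : the reduction of the chart of level `M` -/

theorem bb_io_algebraMap (r : kk (restrict A K₀)) :
    io A K₀ (algebraMap (kk (restrict A K₀)) (LaurentSeries (kk (restrict A K₀))) r) =
      algebraMap (kk A) (LaurentSeries (kk A)) (residueMap A K₀ r) := by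
  rw [algebraMap_laurentSeries_eq_single, algebraMap_laurentSeries_eq_single]
  exact coeffMap_single _ _ _

theorem mem_bb_iff (H : Hyp A K₀ G G' q) (x : laurentBaseChange K₀ G')
    (z : LaurentSeries (kk A)) :
    z ∈ bb A (laurentBaseChange Qbar G') (toBar G' K₀ x) ↔
      ∃ z₀ ∈ bb (restrict A K₀) (laurentBaseChange K₀ G') x, io A K₀ z₀ = z := by
  constructor
  · rintro ⟨y, hy, rfl⟩
    obtain ⟨e, ω, hω, hS⟩ := exists_comb (F₀ := G') H.base {(y : laurentBaseChange Qbar G')}
    obtain ⟨c, hc⟩ := hS _ (Finset.mem_singleton_self _)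
    have hmem : comb K₀ G' ω c ∈ chart' A (laurentBaseChange Qbar G') (toBar G' K₀ x) := by
      rw [← hc]; exact hy
    have hcj := (comb_mem_chart'_iff H hω x c).mp hmem
    have hy' : y = ⟨comb K₀ G' ω c, hmem.1⟩ := Subtype.ext hc
    have hr : ∀ j, ∃ r : kk (restrict A K₀),
        residueMap A K₀ r = IsLocalRing.residue A ⟨ω j, hω.mem j⟩ :=
      fun j => (residueMap_bijective H).2 _
    choose r hr using hr
    refine ⟨∑ j, algebraMap (kk (restrict A K₀)) (LaurentSeries (kk (restrict A K₀))) (r j) *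
      rho (restrict A K₀) (laurentBaseChange K₀ G') ⟨c j, (hcj j).1⟩, ?_, ?_⟩
    · refine Subalgebra.sum_mem _ fun j _ => Subalgebra.mul_mem _ (Subalgebra.algebraMap_mem _ _) ?_
      exact mem_bb.2 ⟨⟨c j, (hcj j).1⟩, hcj j, rfl⟩
    · rw [hy', rho_comb hω c (fun j => (hcj j).1) hmem.1, map_sum]
      refine Finset.sum_congr rfl fun j _ => ?_
      rw [map_mul, bb_io_algebraMap, hr]
  · rintro ⟨z₀, ⟨y₀, hy₀, rfl⟩, rfl⟩
    exact ⟨⟨toBar G' K₀ y₀, toBar_mem_gauss y₀.2⟩, toBar_mem_chart' hy₀, rho_toBar y₀⟩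

/-- The isomorphism `b(K₀) ≃ b(ℚ̄)`. -/
def bbEquiv (H : Hyp A K₀ G G' q) (x : laurentBaseChange K₀ G') :
    bb (restrict A K₀) (laurentBaseChange K₀ G') x ≃+*
      bb A (laurentBaseChange Qbar G') (toBar G' K₀ x) :=
  RingEquiv.ofBijective
    (((io A K₀).comp (bb (restrict A K₀) (laurentBaseChange K₀ G') x).val.toRingHom).codRestrict
      (bb A (laurentBaseChange Qbar G') (toBar G' K₀ x)).toSubring
      (fun z => (mem_bb_iff H x _).mpr ⟨z, z.2, rfl⟩))
    (by
      constructor
      · intro a b h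
        exact Subtype.ext (coeffMap_injective _ (residueMap_injective A K₀)
          (congrArg Subtype.val h))
      · intro z
        obtain ⟨z₀, hz₀, e⟩ := (mem_bb_iff H x _).mp z.2
        exact ⟨⟨z₀, hz₀⟩, Subtype.ext e⟩)

theorem coe_bbEquiv (H : Hyp A K₀ G G' q) (x : laurentBaseChange K₀ G')
    (z : bb (restrict A K₀) (laurentBaseChange K₀ G') x) :
    ((bbEquiv H x z : bb A (laurentBaseChange Qbar G') (toBar G' K₀ x)) : LaurentSeries (kk A)) =
      io A K₀ (z : LaurentSeries (kk (restrict A K₀))) := rfl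

theorem bbEquiv_smul (H : Hyp A K₀ G G' q) (x : laurentBaseChange K₀ G')
    (r : kk (restrict A K₀)) (z : bb (restrict A K₀) (laurentBaseChange K₀ G') x) :
    bbEquiv H x (r • z) = residueMap A K₀ r • bbEquiv H x z := by
  apply Subtype.ext
  rw [coe_bbEquiv, Subalgebra.coe_smul, Subalgebra.coe_smul, coe_bbEquiv, Algebra.smul_def,
    Algebra.smul_def, map_mul, bb_io_algebraMap]

theorem bbEquiv_zero' (H : Hyp A K₀ G G' q) (x : laurentBaseChange K₀ G') :
    bbEquiv H x 0 = 0 := by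
  apply Subtype.ext
  show io A K₀ (0 : LaurentSeries (kk (restrict A K₀))) = 0
  rw [map_zero]

theorem bbEquiv_add' (H : Hyp A K₀ G G' q) (x : laurentBaseChange K₀ G')
    (z z' : bb (restrict A K₀) (laurentBaseChange K₀ G') x) :
    bbEquiv H x (z + z') = bbEquiv H x z + bbEquiv H x z' := by
  apply Subtype.ext
  show io A K₀ ((z : LaurentSeries (kk (restrict A K₀))) + (z' : LaurentSeries (kk (restrict A K₀))))
    = io A K₀ (z : LaurentSeries (kk (restrict A K₀))) +
      io A K₀ (z' : LaurentSeries (kk (restrict A K₀)))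
  rw [map_add]

theorem bbEquiv_pow_mul' (H : Hyp A K₀ G G' q) (x : laurentBaseChange K₀ G')
    (z z' : bb (restrict A K₀) (laurentBaseChange K₀ G') x) (a : ℕ) :
    bbEquiv H x (z ^ a * z') = bbEquiv H x z ^ a * bbEquiv H x z' := by
  apply Subtype.ext
  show io A K₀ ((z : LaurentSeries (kk (restrict A K₀))) ^ a *
      (z' : LaurentSeries (kk (restrict A K₀)))) =
    io A K₀ (z : LaurentSeries (kk (restrict A K₀))) ^ a *
      io A K₀ (z' : LaurentSeries (kk (restrict A K₀)))
  rw [map_mul, map_pow]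

section Fields

local notation "F" => laurentBaseChange Qbar G
local notation "F'" => laurentBaseChange Qbar G'
local notation "Fu" => laurentBaseChange K₀ G
local notation "Fu'" => laurentBaseChange K₀ G'
local notation "A₀" => restrict A K₀

theorem fin_of (H : Hyp A K₀ G G' q) (x' : Fu') (xb₀ : bb A₀ Fu' x')
    (h₀ : ∃ S : Finset (bb A₀ Fu' x'), ∀ y : bb A₀ Fu' x',
      y ∈ Submodule.span (kk A₀) {z : bb A₀ Fu' x' | ∃ g ∈ S, ∃ a : ℕ, z = xb₀ ^ a * g}) :
    ∃ S : Finset (bb A F' (toBar G' K₀ x')), ∀ y : bb A F' (toBar G' K₀ x'),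
      y ∈ Submodule.span (kk A)
        {z : bb A F' (toBar G' K₀ x') | ∃ g ∈ S, ∃ a : ℕ, z = bbEquiv H x' xb₀ ^ a * g} := by
  classical
  obtain ⟨S₀, hS₀⟩ := h₀
  refine ⟨S₀.image (bbEquiv H x'), fun y => ?_⟩
  obtain ⟨y₀, rfl⟩ := (bbEquiv H x').surjective y
  refine Submodule.span_induction
    (p := fun z _ => bbEquiv H x' z ∈ Submodule.span (kk A)
      {z : bb A F' (toBar G' K₀ x') | ∃ g ∈ S₀.image (bbEquiv H x'), ∃ a : ℕ,
        z = bbEquiv H x' xb₀ ^ a * g}) ?_ ?_ ?_ ?_ (hS₀ y₀)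
  · rintro z ⟨g, hg, a, rfl⟩
    exact Submodule.subset_span ⟨bbEquiv H x' g, Finset.mem_image_of_mem _ hg, a,
      bbEquiv_pow_mul' H x' xb₀ g a⟩
  · rw [bbEquiv_zero']; exact Submodule.zero_mem _
  · intro z z' _ _ hz hz'
    rw [bbEquiv_add']; exact Submodule.add_mem _ hz hz'
  · intro r z _ hz
    rw [bbEquiv_smul]; exact Submodule.smul_mem _ _ hz

end Fields

end Fermat.Agent.S34.Nodal.Inst.Ur

end
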