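/-
C1 nodal core, instantiation, block UR-TRANSFER (architect helper248), task URT-4 `Decomp.lean`
(helper266): transfer of the fields `exhaust`, `hH1`, `hcond2` of `Contracts` from the good base
`(K₀, A₀ = A ∩ K₀)` to `(ℚ̄, A)`.
-/
import Fermat.Agent.Lib.UrBase.Span
import Fermat.Agent.S34.Nodal.Inst.Ur.Mem
import Fermat.Agent.S34.Nodal.Inst.Ur.ToBar
import Fermat.Agent.S34.Nodal.Inst.Ur.BB

set_option autoImplicit false

noncomputable section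

namespace Fermat.Agent.S34.Nodal.Inst.Ur

open ModularCurve Fermat.Agent.S18.Descent Fermat.Agent.S18.Vert Fermat.Agent.Lib.UrBase Polynomial

local notation "Qbar" => AlgebraicClosure ℚ

variable {A : ValuationSubring Qbar} {K₀ : IntermediateField ℚ Qbar}
variable {G G' : IntermediateField ℚ (LaurentSeries ℚ)}
variable {e : ℕ} {ω : Fin e → Qbar} {q : ℕ}
variable {w : laurentBaseChange Qbar G ≃ₐ[Qbar] laurentBaseChange Qbar G}
variable {wu : laurentBaseChange K₀ G ≃ₐ[K₀] laurentBaseChange K₀ G}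

section Fields

local notation "F" => laurentBaseChange Qbar G
local notation "F'" => laurentBaseChange Qbar G'
local notation "Fu" => laurentBaseChange K₀ G
local notation "Fu'" => laurentBaseChange K₀ G'
local notation "A₀" => restrict A K₀

theorem Decomp.toBar_mul_comb (a : Fu) (c : Fin e → Fu) :
    toBar G K₀ a * comb K₀ G ω c = comb K₀ G ω fun j => a * c j := by
  unfold comb
  rw [Finset.mul_sum]
  refine Finset.sum_congr rfl fun j _ => ?_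
  rw [map_mul, mul_left_comm]

theorem Decomp.comb_add (c d : Fin e → Fu) :
    comb K₀ G ω c + comb K₀ G ω d = comb K₀ G ω fun j => c j + d j := by
  unfold comb
  rw [← Finset.sum_add_distrib]
  refine Finset.sum_congr rfl fun j _ => ?_
  rw [map_add, mul_add]

theorem Decomp.self_mem_chart {x : Fu} (hx : x ∈ OO A₀ Fu wu) : x ∈ chart A₀ Fu wu x := by
  refine mem_chart.mpr ⟨hx, ?_⟩
  have : x = algebraMap (Algebra.adjoin K₀ {x}) Fu
      ⟨x, Algebra.subset_adjoin (Set.mem_singleton x)⟩ := rfl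
  rw [this]
  exact isIntegral_algebraMap

theorem exhaust_of (H : Hyp A K₀ G G' q) (hw : ∀ z, w (toBar G K₀ z) = toBar G K₀ (wu z))
    (x : Fu) (hx : x⁻¹ ∈ OO A₀ Fu wu)
    (h₀ : ∀ b ∈ chart A₀ Fu wu x, ∃ e : ℕ, x⁻¹ ^ e * b ∈ chart A₀ Fu wu x⁻¹) :
    ∀ b ∈ chart A F w (toBar G K₀ x), ∃ e : ℕ,
      (toBar G K₀ x)⁻¹ ^ e * b ∈ chart A F w (toBar G K₀ x)⁻¹ := by
  intro b hb
  obtain ⟨e, ω, hω, hS⟩ := exists_comb (F₀ := G) H.base {b}
  obtain ⟨c, rfl⟩ := hS b (Finset.mem_singleton_self b)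
  have hc := (comb_mem_chart_iff H hω hw x c).mp hb
  choose e' he' using fun j => h₀ (c j) (hc j)
  refine ⟨Finset.univ.sup e', ?_⟩
  rw [← map_inv₀, ← map_pow, Decomp.toBar_mul_comb, comb_mem_chart_iff H hω hw x⁻¹]
  intro j
  have hle : e' j ≤ Finset.univ.sup e' := Finset.le_sup (Finset.mem_univ j)
  have e1 : x⁻¹ ^ Finset.univ.sup e' * c j =
      x⁻¹ ^ (Finset.univ.sup e' - e' j) * (x⁻¹ ^ e' j * c j) := by
    rw [← mul_assoc, ← pow_add, Nat.sub_add_cancel hle]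
  rw [e1]
  exact (chart A₀ Fu wu x⁻¹).mul_mem
    ((chart A₀ Fu wu x⁻¹).pow_mem (Decomp.self_mem_chart hx) _) (he' j)

theorem hH1_of (H : Hyp A K₀ G G' q) (hw : ∀ z, w (toBar G K₀ z) = toBar G K₀ (wu z))
    (x : Fu)
    (h₀ : ∃ c : ℕ, ∀ z ∈ chartMid A₀ Fu wu x, ∃ z1 ∈ chart A₀ Fu wu x,
      ∃ z2 ∈ chart A₀ Fu wu x⁻¹, z = z1 + x ^ c * z2) :
    ∃ c : ℕ, ∀ z ∈ chartMid A F w (toBar G K₀ x), ∃ z1 ∈ chart A F w (toBar G K₀ x),
      ∃ z2 ∈ chart A F w (toBar G K₀ x)⁻¹, z = z1 + toBar G K₀ x ^ c * z2 := by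
  obtain ⟨c, hc⟩ := h₀
  refine ⟨c, fun z hz => ?_⟩
  obtain ⟨e, ω, hω, hS⟩ := exists_comb (F₀ := G) H.base {z}
  obtain ⟨zc, rfl⟩ := hS z (Finset.mem_singleton_self z)
  have hzc := (comb_mem_chartMid_iff H hω hw x zc).mp hz
  choose z1 hz1 z2 hz2 heq using fun j => hc (zc j) (hzc j)
  refine ⟨comb K₀ G ω z1, (comb_mem_chart_iff H hω hw x z1).mpr hz1, comb K₀ G ω z2, ?_, ?_⟩
  · rw [← map_inv₀]
    exact (comb_mem_chart_iff H hω hw x⁻¹ z2).mpr hz2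
  · rw [← map_pow, Decomp.toBar_mul_comb, Decomp.comb_add]
    congr 1
    funext j
    exact heq j

theorem Decomp.io_algebraMap (r : kk A₀) :
    io A K₀ (algebraMap (kk A₀) (LaurentSeries (kk A₀)) r) =
      algebraMap (kk A) (LaurentSeries (kk A)) (residueMap A K₀ r) := by
  rw [algebraMap_laurentSeries_eq_single, algebraMap_laurentSeries_eq_single, coeffMap_single]

theorem hcond2_of (H : Hyp A K₀ G G' q) (hw : ∀ z, w (toBar G K₀ z) = toBar G K₀ (wu z))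
    (x' : Fu') (x : Fu) (hx : x⁻¹ ∈ OO A₀ Fu wu) (hx' : (toBar G K₀ x)⁻¹ ∈ OO A F w)
    (h₀ : ∃ P : (kk A₀)[X], P.eval 0 ≠ 0 ∧
      ∀ v : Om A₀, v.1 ∈ bb A₀ Fu' x'⁻¹ → v.2 ∈ bb A₀ Fu' x'⁻¹ →
        ∃ y : OO A₀ Fu wu, (y : Fu) ∈ chart A₀ Fu wu x⁻¹ ∧
          red2 A₀ Fu wu y = aeval (red2 A₀ Fu wu ⟨x⁻¹, hx⟩) P * v) :
    ∃ P : (kk A)[X], P.eval 0 ≠ 0 ∧
      ∀ v : Om A, v.1 ∈ bb A F' (toBar G' K₀ x')⁻¹ → v.2 ∈ bb A F' (toBar G' K₀ x')⁻¹ →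
        ∃ y : OO A F w, (y : F) ∈ chart A F w (toBar G K₀ x)⁻¹ ∧
          red2 A F w y = aeval (red2 A F w ⟨(toBar G K₀ x)⁻¹, hx'⟩) P * v := by
  obtain ⟨P, hP, h⟩ := h₀
  refine ⟨P.map (residueMap A K₀), ?_, ?_⟩
  · rw [Polynomial.eval_zero_map]
    exact (_root_.map_ne_zero _).mpr hP
  · intro v hv1 hv2
    rw [← map_inv₀] at hv1 hv2
    obtain ⟨v1, hv1m, e1⟩ := (mem_bb_iff H x'⁻¹ _).mp hv1
    obtain ⟨v2, hv2m, e2⟩ := (mem_bb_iff H x'⁻¹ _).mp hv2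
    obtain ⟨y₀, hy₀, e₀⟩ := h (v1, v2) hv1m hv2m
    refine ⟨⟨toBar G K₀ y₀, toBar_mem_OO hw y₀.2⟩, ?_, ?_⟩
    · rw [← map_inv₀]
      exact toBar_mem_chart hw hy₀
    · let J : Om A₀ →+* Om A := RingHom.prodMap (io A K₀) (io A K₀)
      have hJ : (algebraMap (kk A) (Om A)).comp (residueMap A K₀) =
          J.comp (algebraMap (kk A₀) (Om A₀)) := by
        ext1 r
        exact Prod.ext (Decomp.io_algebraMap r).symm (Decomp.io_algebraMap r).symm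
      have hr : J (red2 A₀ Fu wu ⟨x⁻¹, hx⟩) = red2 A F w ⟨(toBar G K₀ x)⁻¹, hx'⟩ := by
        have h1 := red2_toBar hw (⟨x⁻¹, hx⟩ : OO A₀ Fu wu)
        have h2 : (⟨toBar G K₀ ((⟨x⁻¹, hx⟩ : OO A₀ Fu wu) : Fu), toBar_mem_OO hw hx⟩ : OO A F w) =
            ⟨(toBar G K₀ x)⁻¹, hx'⟩ := Subtype.ext (map_inv₀ _ _)
        rw [← h2, h1]
        rfl
      have hv : J (v1, v2) = v := Prod.ext e1 e2
      rw [red2_toBar hw y₀, e₀, ← hr, ← Polynomial.map_aeval_eq_aeval_map hJ, ← hv, ← map_mul]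
      rfl

end Fields

end Fermat.Agent.S34.Nodal.Inst.Ur

end
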