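/-
C1 nodal core, instantiation, block UR (owner helper248): transfer of the fields of `Contracts`
from a good base `(K₀, A₀ = A ∩ K₀)` (the inertia field) to `(ℚ̄, A)`:
`red_chart_of`, `int_of`, `proj1_of`, `proj2_of`, `conj`, `gen1_of`, `gen2_of`.
(`fin_of` is in `Ur/BB.lean`; `exhaust_of`, `hH1_of`, `hcond2_of` in `Ur/Decomp.lean`.)
-/
import Fermat.Agent.Lib.UrBase.Gauss
import Fermat.Agent.S34.Nodal.Inst.Ur.BB

set_option autoImplicit false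

noncomputable section

namespace Fermat.Agent.S34.Nodal.Inst.Ur

open ModularCurve Fermat.Agent.S18.Descent Fermat.Agent.S18.Vert Fermat.Agent.Lib.UrBase Polynomial

local notation "Qbar" => AlgebraicClosure ℚ

variable {A : ValuationSubring Qbar} {K₀ : IntermediateField ℚ Qbar}
variable {G G' : IntermediateField ℚ (LaurentSeries ℚ)}
variable {q : ℕ}
variable {w : laurentBaseChange Qbar G ≃ₐ[Qbar] laurentBaseChange Qbar G}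
variable {wu : laurentBaseChange K₀ G ≃ₐ[K₀] laurentBaseChange K₀ G}

section Fields

local notation "F" => laurentBaseChange Qbar G
local notation "F'" => laurentBaseChange Qbar G'
local notation "Fu" => laurentBaseChange K₀ G
local notation "Fu'" => laurentBaseChange K₀ G'
local notation "A₀" => restrict A K₀

theorem red_chart_of (H : Hyp A K₀ G G' q) (hw : ∀ z, w (toBar G K₀ z) = toBar G K₀ (wu z))
    (x' : Fu') (x : Fu)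
    (h₀ : ∀ y : OO A₀ Fu wu, (y : Fu) ∈ chart A₀ Fu wu x →
      (red2 A₀ Fu wu y).1 ∈ bb A₀ Fu' x' ∧ (red2 A₀ Fu wu y).2 ∈ bb A₀ Fu' x') :
    ∀ y : OO A F w, (y : F) ∈ chart A F w (toBar G K₀ x) →
      (red2 A F w y).1 ∈ bb A F' (toBar G' K₀ x') ∧ (red2 A F w y).2 ∈ bb A F' (toBar G' K₀ x') := by
  intro y hy
  obtain ⟨y₀, hy₀, e⟩ := exists_red2_eq H hw x y hy
  rw [e]
  exact ⟨(mem_bb_iff H x' _).mpr ⟨_, (h₀ y₀ hy₀).1, rfl⟩, (mem_bb_iff H x' _).mpr ⟨_, (h₀ y₀ hy₀).2, rfl⟩⟩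

theorem int_of (H : Hyp A K₀ G G' q) (x' : Fu') (n : ℕ)
    (h₀ : ∀ y : gaussSubring A₀ Fu, rho A₀ Fu y ^ n ∈ bb A₀ Fu' x' → rho A₀ Fu y ∈ bb A₀ Fu' x') :
    ∀ y : gaussSubring A F, rho A F y ^ n ∈ bb A F' (toBar G' K₀ x') →
      rho A F y ∈ bb A F' (toBar G' K₀ x') := by
  intro y hy
  have := H.dvr
  obtain ⟨y₀, e⟩ := exists_rho_eq H.quot H.prime H.lies H.base y
  rw [e] at hy ⊢
  obtain ⟨z₀, hz₀, e₀⟩ := (mem_bb_iff H x' _).mp hy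
  refine (mem_bb_iff H x' _).mpr ⟨_, h₀ y₀ ?_, rfl⟩
  have : z₀ = rho A₀ Fu y₀ ^ n := by
    apply coeffMap_injective _ (residueMap_injective A K₀)
    rw [map_pow]
    exact e₀
  rwa [← this]

theorem proj1_of (H : Hyp A K₀ G G' q) (hw : ∀ z, w (toBar G K₀ z) = toBar G K₀ (wu z))
    (x' : Fu') (x : Fu)
    (h₀ : ∀ c : bb A₀ Fu' x', ∃ y : OO A₀ Fu wu, (y : Fu) ∈ chart A₀ Fu wu x ∧
      (red2 A₀ Fu wu y).1 = c) :
    ∀ c : bb A F' (toBar G' K₀ x'), ∃ y : OO A F w, (y : F) ∈ chart A F w (toBar G K₀ x) ∧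
      (red2 A F w y).1 = c := by
  intro c
  obtain ⟨z₀, hz₀, e₀⟩ := (mem_bb_iff H x' _).mp c.2
  obtain ⟨y₀, hy₀, e₁⟩ := h₀ ⟨z₀, hz₀⟩
  refine ⟨⟨toBar G K₀ y₀, toBar_mem_OO hw y₀.2⟩, toBar_mem_chart hw hy₀, ?_⟩
  rw [red2_toBar hw y₀, e₁]
  exact e₀

theorem proj2_of (H : Hyp A K₀ G G' q) (hw : ∀ z, w (toBar G K₀ z) = toBar G K₀ (wu z))
    (x' : Fu') (x : Fu)
    (h₀ : ∀ c : bb A₀ Fu' x', ∃ y : OO A₀ Fu wu, (y : Fu) ∈ chart A₀ Fu wu x ∧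
      (red2 A₀ Fu wu y).2 = c) :
    ∀ c : bb A F' (toBar G' K₀ x'), ∃ y : OO A F w, (y : F) ∈ chart A F w (toBar G K₀ x) ∧
      (red2 A F w y).2 = c := by
  intro c
  obtain ⟨z₀, hz₀, e₀⟩ := (mem_bb_iff H x' _).mp c.2
  obtain ⟨y₀, hy₀, e₁⟩ := h₀ ⟨z₀, hz₀⟩
  refine ⟨⟨toBar G K₀ y₀, toBar_mem_OO hw y₀.2⟩, toBar_mem_chart hw hy₀, ?_⟩
  rw [red2_toBar hw y₀, e₁]
  exact e₀

/-- transport of an endomorphism of `b(K₀)` to `b(ℚ̄)`. -/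
def conj (H : Hyp A K₀ G G' q) (x' : Fu') (φ : bb A₀ Fu' x' →+* bb A₀ Fu' x') :
    bb A F' (toBar G' K₀ x') →+* bb A F' (toBar G' K₀ x') :=
  ((bbEquiv H x' : bb A₀ Fu' x' →+* bb A F' (toBar G' K₀ x')).comp φ).comp
    ((bbEquiv H x').symm : bb A F' (toBar G' K₀ x') →+* bb A₀ Fu' x')

theorem conj_bbEquiv (H : Hyp A K₀ G G' q) (x' : Fu') (φ : bb A₀ Fu' x' →+* bb A₀ Fu' x')
    (f : bb A₀ Fu' x') : conj H x' φ (bbEquiv H x' f) = bbEquiv H x' (φ f) := by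
  simp [conj]

theorem gen1_of (H : Hyp A K₀ G G' q) (hw : ∀ z, w (toBar G K₀ z) = toBar G K₀ (wu z))
    (x' : Fu') (x : Fu) (φ : bb A₀ Fu' x' →+* bb A₀ Fu' x')
    (h₀ : ∀ f : bb A₀ Fu' x', ∃ y : OO A₀ Fu wu, (y : Fu) ∈ chart A₀ Fu wu x ∧
      red2 A₀ Fu wu y = (((f - φ f : bb A₀ Fu' x') : LaurentSeries (kk A₀)), 0)) :
    ∀ f : bb A F' (toBar G' K₀ x'), ∃ y : OO A F w, (y : F) ∈ chart A F w (toBar G K₀ x) ∧
      red2 A F w y =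
        (((f - conj H x' φ f : bb A F' (toBar G' K₀ x')) : LaurentSeries (kk A)), 0) := by
  intro f
  obtain ⟨f₀, rfl⟩ := (bbEquiv H x').surjective f
  obtain ⟨y₀, hy₀, e₁⟩ := h₀ f₀
  refine ⟨⟨toBar G K₀ y₀, toBar_mem_OO hw y₀.2⟩, toBar_mem_chart hw hy₀, ?_⟩
  rw [red2_toBar hw y₀, e₁, conj_bbEquiv, ← map_sub, coe_bbEquiv, map_zero]

theorem gen2_of (H : Hyp A K₀ G G' q) (hw : ∀ z, w (toBar G K₀ z) = toBar G K₀ (wu z))
    (x' : Fu') (x : Fu) (φ : bb A₀ Fu' x' →+* bb A₀ Fu' x')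
    (h₀ : ∀ f : bb A₀ Fu' x', ∃ y : OO A₀ Fu wu, (y : Fu) ∈ chart A₀ Fu wu x ∧
      red2 A₀ Fu wu y = (0, ((f - φ f : bb A₀ Fu' x') : LaurentSeries (kk A₀)))) :
    ∀ f : bb A F' (toBar G' K₀ x'), ∃ y : OO A F w, (y : F) ∈ chart A F w (toBar G K₀ x) ∧
      red2 A F w y =
        (0, ((f - conj H x' φ f : bb A F' (toBar G' K₀ x')) : LaurentSeries (kk A))) := by
  intro f
  obtain ⟨f₀, rfl⟩ := (bbEquiv H x').surjective f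
  obtain ⟨y₀, hy₀, e₁⟩ := h₀ f₀
  refine ⟨⟨toBar G K₀ y₀, toBar_mem_OO hw y₀.2⟩, toBar_mem_chart hw hy₀, ?_⟩
  rw [red2_toBar hw y₀, e₁, conj_bbEquiv, ← map_sub, coe_bbEquiv, map_zero]

end Fields

end Fermat.Agent.S34.Nodal.Inst.Ur

end
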