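/-
C1 nodal core, instantiation, block K6 (helper248): the field `hH1` of `Inst.Contracts`, parametric
part.  If the first chart is spanned over `A` by the `x ^ a * g`, `g` in a finite set, then
`chartMid = chart x + x ^ c * chart x⁻¹` for some `c`.
-/
import Fermat.Agent.S34.Nodal.Inst.R.Exhaust
import Fermat.Agent.S34.Nodal.Torsion

set_option autoImplicit false

noncomputable section

namespace Fermat.Agent.S34.Nodal.Inst.Ur

open ModularCurve Fermat.Agent.S18.Vert Polynomial

section Algebra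

variable {K L : Type*} [Field K] [Field L] [Algebra K L]

/-- Elements of `K[x, x⁻¹]` have bounded denominators. -/
theorem exists_pow_mul_mem_adjoin {x : L} (hx : x ≠ 0) {a : L}
    (ha : a ∈ Algebra.adjoin K {x, x⁻¹}) :
    ∃ d : ℕ, ∀ d', d ≤ d' → x ^ d' * a ∈ Algebra.adjoin K {x} := by
  have hs : x ∈ Algebra.adjoin K {x} := Algebra.self_mem_adjoin_singleton K x
  induction ha using Algebra.adjoin_induction with
  | mem y hy =>
    rcases hy with hy | hy
    · refine ⟨0, fun d' _ => ?_⟩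
      rw [hy]
      exact Subalgebra.mul_mem _ (Subalgebra.pow_mem _ hs _) hs
    · have hyx : y = x⁻¹ := hy
      refine ⟨1, fun d' hd' => ?_⟩
      obtain ⟨m, rfl⟩ := Nat.exists_eq_add_of_le hd'
      have : x ^ (1 + m) * y = x ^ m := by
        rw [hyx, pow_add, pow_one, mul_right_comm, mul_inv_cancel₀ hx, one_mul]
      rw [this]
      exact Subalgebra.pow_mem _ hs _
  | algebraMap c =>
    exact ⟨0, fun d' _ => Subalgebra.mul_mem _ (Subalgebra.pow_mem _ hs _)
      (Subalgebra.algebraMap_mem _ c)⟩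
  | add y z _ _ hy hz =>
    obtain ⟨d₁, h₁⟩ := hy
    obtain ⟨d₂, h₂⟩ := hz
    refine ⟨max d₁ d₂, fun d' hd' => ?_⟩
    rw [mul_add]
    exact Subalgebra.add_mem _ (h₁ d' (le_trans (le_max_left _ _) hd'))
      (h₂ d' (le_trans (le_max_right _ _) hd'))
  | mul y z _ _ hy hz =>
    obtain ⟨d₁, h₁⟩ := hy
    obtain ⟨d₂, h₂⟩ := hz
    refine ⟨d₁ + d₂, fun d' hd' => ?_⟩
    obtain ⟨m, rfl⟩ := Nat.exists_eq_add_of_le hd'
    have : x ^ (d₁ + d₂ + m) * (y * z) = (x ^ d₁ * y) * (x ^ (d₂ + m) * z) := by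
      rw [add_assoc, pow_add]
      ring
    rw [this]
    exact Subalgebra.mul_mem _ (h₁ _ le_rfl) (h₂ _ (Nat.le_add_right _ _))

/-- If `b` is integral over `K[x, x⁻¹]` then `x ^ e * b` is integral over `K[x]` for some `e`. -/
theorem exists_isIntegral_pow_mul {x : L} (hx : x ≠ 0) {b : L}
    (hb : IsIntegral (Algebra.adjoin K {x, x⁻¹}) b) :
    ∃ e : ℕ, IsIntegral (Algebra.adjoin K {x}) (x ^ e * b) := by
  classical
  obtain ⟨p, hp, hpb⟩ := hb
  have hex : ∀ i : ℕ, ∃ d : ℕ, ∀ d', d ≤ d' →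
      x ^ d' * (p.map (algebraMap (Algebra.adjoin K {x, x⁻¹}) L)).coeff i
        ∈ Algebra.adjoin K {x} := by
    intro i
    rw [coeff_map]
    exact exists_pow_mul_mem_adjoin hx (p.coeff i).2
  choose d hd using hex
  obtain ⟨e, he⟩ : ∃ e : ℕ, ∀ i, i ≤ p.natDegree → d i ≤ e :=
    ⟨(Finset.range (p.natDegree + 1)).sup d, fun i hi =>
      Finset.le_sup (f := d) (Finset.mem_range.mpr (Nat.lt_succ_of_le hi))⟩
  refine ⟨e, ?_⟩
  have hs : x ^ e ∈ Algebra.adjoin K {x} :=
    Subalgebra.pow_mem _ (Algebra.self_mem_adjoin_singleton K x) _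
  have hev : (p.map (algebraMap (Algebra.adjoin K {x, x⁻¹}) L)).eval b = 0 := by
    rw [eval_map]; exact hpb
  refine R.isIntegral_mul_of_coeff_mul_mem _
    (hp.map (algebraMap (Algebra.adjoin K {x, x⁻¹}) L)) hs (fun i => ?_) hev
  by_cases hi : i ≤ p.natDegree
  · exact hd i _ (he i hi)
  · rw [coeff_map, coeff_eq_zero_of_natDegree_lt (not_le.mp hi), map_zero, mul_zero]
    exact Subalgebra.zero_mem _

end Algebra

variable {K : Type*} [Field K] {A : ValuationSubring K}
variable {F : IntermediateField K (LaurentSeries K)} {w : F ≃ₐ[K] F}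

theorem algebraMap_mem_OO (a : A) : algebraMap K F (a : K) ∈ OO A F w :=
  ⟨algebraMap_mem_gauss A F a, by
    show w (algebraMap K F (a : K)) ∈ gaussSubring A F
    rw [w.commutes]
    exact algebraMap_mem_gauss A F a⟩

theorem isIntegral_const (S : Subalgebra K F) (a : K) : IsIntegral S (algebraMap K F a) := by
  have : algebraMap K F a = algebraMap S F (algebraMap K S a) := rfl
  rw [this]
  exact isIntegral_algebraMap

/-- A subring of `F` containing the constants of `A`, as an `A`-submodule. -/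
def toMod (R : Subring F) (h : ∀ a : A, algebraMap K F (a : K) ∈ R) : Submodule A F where
  carrier := R
  add_mem' := R.add_mem
  zero_mem' := R.zero_mem
  smul_mem' := fun a y hy => by
    have : a • y = algebraMap K F (a : K) * y := by
      rw [Algebra.smul_def]; rfl
    rw [this]
    exact R.mul_mem (h a) hy

theorem self_mem_chart {x : F} (hx : x ∈ OO A F w) : x ∈ chart A F w x :=
  ⟨hx, by
    have : x = algebraMap (Algebra.adjoin K {x}) F ⟨x, Algebra.subset_adjoin rfl⟩ := rfl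
    show IsIntegral (Algebra.adjoin K {x}) x
    rw [this]
    exact isIntegral_algebraMap⟩

/-- **The field `hH1` of `Inst.Contracts`** from the finiteness of the first chart. -/
theorem hH1_of_span {x : F} (hx0 : x ≠ 0) (hx : x ∈ OO A F w) (hxinv : x⁻¹ ∈ OO A F w)
    (S : Finset F) (hS : ∀ g ∈ S, g ∈ chart A F w x)
    (hspan : ∀ b ∈ chart A F w x,
      b ∈ Submodule.span A {z : F | ∃ g ∈ S, ∃ a : ℕ, z = x ^ a * g}) :
    ∃ c : ℕ, ∀ z ∈ chartMid A F w x, ∃ z1 ∈ chart A F w x, ∃ z2 ∈ chart A F w x⁻¹,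
      z = z1 + x ^ c * z2 := by
  have h1 : ∀ a : A, algebraMap K F (a : K) ∈ chart A F w x :=
    fun a => ⟨algebraMap_mem_OO a, isIntegral_const _ _⟩
  have h2 : ∀ a : A, algebraMap K F (a : K) ∈ chart A F w x⁻¹ :=
    fun a => ⟨algebraMap_mem_OO a, isIntegral_const _ _⟩
  have h12 : ∀ a : A, algebraMap K F (a : K) ∈ chartMid A F w x :=
    fun a => ⟨algebraMap_mem_OO a, isIntegral_const _ _⟩
  exact exists_twist_vanishing (A := A) x hx0 (toMod _ h1) (toMod _ h2) (toMod _ h12)
    (fun y hy => (chart A F w x).mul_mem (self_mem_chart hx) hy)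
    (fun y hy => (chart A F w x⁻¹).mul_mem (self_mem_chart hxinv) hy)
    (fun y hy => by
      obtain ⟨m, hm⟩ := exists_isIntegral_pow_mul (K := K) hx0 hy.2
      exact ⟨m, (OO A F w).mul_mem ((OO A F w).pow_mem hx _) hy.1, hm⟩)
    S ⟨hS, hspan⟩ (fun g hg => R.exhaust_of_inv_mem hx0 hxinv g (hS g hg))

end Fermat.Agent.S34.Nodal.Inst.Ur

end
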