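/-
C1 nodal core, instantiation, block K6 (helper248): the field `hH1` of `Inst.Contracts` over a
discrete valuation ring, from a complete pair of vertical valuation rings `V 0 = v_∞` (the Gauss
valuation ring), `V 1 = v_∞ ∘ w₀` in the language of `BAD/LevelQ`.
-/
import Fermat.Agent.S34.Nodal.Inst.Ur.H1Abs
import Fermat.Agent.S34.Nodal.Inst.G.Dict
import Fermat.Agent.S34.Nodal.Inst.II.Fin
import Fermat.Agent.BAD.LevelQ.Abs.Coord

set_option autoImplicit false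

noncomputable section

namespace Fermat.Agent.S34.Nodal.Inst.Ur

open ModularCurve Fermat.Agent.S18.Vert Fermat.Agent.S18 Fermat.Agent.BAD Polynomial
  IntermediateField

variable {K₀ : Type*} [Field K₀] {A₀ : ValuationSubring K₀} {ϖ₀ : K₀}
variable {L : IntermediateField K₀ (LaurentSeries K₀)} {w₀ : L ≃ₐ[K₀] L}
variable {V : Fin 2 → ValuationSubring L} {x₀ : L}

theorem mem_OO_iff_forall (hL : Gauss.HasNf A₀ ϖ₀ L) (h₀ : IsUnif A₀ ϖ₀)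
    (hG : IsGauss A₀ ϖ₀ L (V 0)) (hV1 : ∀ y, y ∈ V 1 ↔ w₀ y ∈ V 0) (y : L) :
    y ∈ OO A₀ L w₀ ↔ ∀ c, y ∈ V c := by
  rw [mem_OO, G.mem_gauss_iff hL hG h₀, G.mem_gauss_iff hL hG h₀, ← hV1, Fin.forall_fin_two]

/-- The chart of `Inst/Defs.lean` is the integral closure of `A₀[x₀]`. -/
theorem mem_chart_iff_of_isMVert (hL : Gauss.HasNf A₀ ϖ₀ L) (hG : IsGauss A₀ ϖ₀ L (V 0))
    (hV1 : ∀ y, y ∈ V 1 ↔ w₀ y ∈ V 0) (hV : LevelQ.IsMVert A₀ ϖ₀ V K₀⟮x₀⟯)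
    (hc : ∀ c, LevelQ.IsMCoord A₀ (V c) x₀) (y : L) :
    y ∈ chart A₀ L w₀ x₀ ↔ y ∈ S18.chart A₀.toSubring x₀ := by
  rw [LevelQ.mem_chart_iff hV hc, mem_chart, mem_OO_iff_forall hL hV.unif₀ hG hV1,
    II.isIntegral_adjoin_iff]

theorem mem_span_of_mem_span_map (S : Finset L) {b : L}
    (hb : b ∈ Submodule.span (A₀.toSubring.map (algebraMap K₀ L))
      {y : L | ∃ (a : ℕ) (e : L), e ∈ S ∧ y = x₀ ^ a * e}) :
    b ∈ Submodule.span A₀ {z : L | ∃ g ∈ S, ∃ a : ℕ, z = x₀ ^ a * g} := by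
  induction hb using Submodule.span_induction with
  | mem y hy =>
    obtain ⟨a, e, he, rfl⟩ := hy
    exact Submodule.subset_span ⟨e, he, a, rfl⟩
  | zero => exact Submodule.zero_mem _
  | add a b _ _ ha hb => exact Submodule.add_mem _ ha hb
  | smul r z _ hz =>
    obtain ⟨r, c, hc, rfl⟩ := r
    exact Submodule.smul_mem _ (⟨c, hc⟩ : A₀) hz

/-- **The field `hH1`** over a discrete valuation ring. -/
theorem hH1_of_isMVert [CharZero K₀] (hL : Gauss.HasNf A₀ ϖ₀ L) (hG : IsGauss A₀ ϖ₀ L (V 0))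
    (hV1 : ∀ y, y ∈ V 1 ↔ w₀ y ∈ V 0) (hV : LevelQ.IsMVert A₀ ϖ₀ V K₀⟮x₀⟯)
    (hc : ∀ c, LevelQ.IsMCoord A₀ (V c) x₀) :
    ∃ c : ℕ, ∀ z ∈ chartMid A₀ L w₀ x₀, ∃ z1 ∈ chart A₀ L w₀ x₀, ∃ z2 ∈ chart A₀ L w₀ x₀⁻¹,
      z = z1 + x₀ ^ c * z2 := by
  have := hV.finite
  obtain ⟨S, hS, hspan⟩ := LevelQ.chart_fin hV.unif₀ (hc 0).transcendental (F := L)
  have hiff := mem_chart_iff_of_isMVert hL hG hV1 hV hc
  exact hH1_of_span (hc 0).ne_zero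
    ((mem_OO_iff_forall hL hV.unif₀ hG hV1 _).mpr fun c => (hc c).mem)
    ((mem_OO_iff_forall hL hV.unif₀ hG hV1 _).mpr fun c => (hc c).inv.mem)
    S (fun g hg => (hiff g).mpr (hS g hg))
    (fun b hb => mem_span_of_mem_span_map S (hspan b ((hiff b).mp hb)))

end Fermat.Agent.S34.Nodal.Inst.Ur

end
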