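/-
C1 nodal core, instantiation, block K6 (helper248): THE FIELD `hH1` of `Inst.Contracts` at `ℚ̄` level,
for `F = FN (M q)`, `w = Gal.wAlg W`, `x = α x' * β x'`, `x' = D.xK ℚ̄`:
the hub `LQ` at the inertia field (`BAD.LevelQ.Mod.exists_LQ`), `hH1_of_isMVert` and the transfer
`Ur.hH1_of`.
-/
import Fermat.Agent.S34.Nodal.Inst.Ur.H1Dvr
import Fermat.Agent.S34.Nodal.Inst.Ur.Decomp
import Fermat.Agent.S34.Nodal.Inst.G.Level
import Fermat.Agent.S34.Nodal.Inst.Gal.Basic
import Fermat.Agent.S34.Nodal.Inst.II.FromLQ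
import Fermat.Agent.BAD.LevelQ.Mod.Main
import Fermat.Agent.BAD.LevelQ.Mod.Frob
import Fermat.Agent.BAD.LevelQ.Hub.Basic

set_option autoImplicit false

noncomputable section

namespace Fermat.Agent.S34.Nodal.Inst.Ur

open ModularCurve Fermat.Agent.S18.Vert Fermat.Agent.S18 Fermat.Agent.S18.Descent
  Fermat.Agent.BAD Fermat.Agent.Lib Fermat.Agent.S24 Fermat.Agent.S34.Nodal.Inst.Gal

variable {A : ValuationSubring Kbar} {M q : ℕ} [NeZero M] [NeZero q]

/-- **The field `hH1`.** -/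
theorem hH1_FN (hq : q.Prime) (hqM : ¬ q ∣ M) (hA : A.LiesOverPrime q) (W : ALInv M q)
    (D : BaseData M q) (hD : LevelQ.Mod.BeInt D) :
    ∃ c : ℕ, ∀ z ∈ chartMid A (modularFunctionFieldBar (M * q)) (wAlg W)
        (heckeAlphaBar Kbar M q (D.xK Kbar) * heckeBetaBar Kbar M q (D.xK Kbar)),
      ∃ z1 ∈ chart A (modularFunctionFieldBar (M * q)) (wAlg W)
        (heckeAlphaBar Kbar M q (D.xK Kbar) * heckeBetaBar Kbar M q (D.xK Kbar)),
      ∃ z2 ∈ chart A (modularFunctionFieldBar (M * q)) (wAlg W)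
        (heckeAlphaBar Kbar M q (D.xK Kbar) * heckeBetaBar Kbar M q (D.xK Kbar))⁻¹,
        z = z1 + (heckeAlphaBar Kbar M q (D.xK Kbar) * heckeBetaBar Kbar M q (D.xK Kbar)) ^ c
          * z2 := by
  have h₀ := G.isUnif_inertia A hq hA
  obtain ⟨γ₀, hγ⟩ := LevelQ.Mod.exists_isFrobInv_K0 A hq hA
  have hchar : (restrict A (InertiaField.K0 A)).valuation ((q : ℕ) : InertiaField.K0 A) < 1 :=
    LevelQ.CoordAux.valuation_unif_lt_one h₀
  obtain ⟨wu, Ow', V, H, -, hG⟩ := LevelQ.Mod.exists_LQ h₀ hq hqM hchar hγ D hD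
  have hdvr := hH1_of_isMVert (Gauss.hasNf_FK h₀ (M * q)) hG H.V_one H.isMVert H.isMCoord
  have hw : ∀ z, wAlg W (toBar (modularFunctionFieldFull (M * q)) (InertiaField.K0 A) z) =
      toBar (modularFunctionFieldFull (M * q)) (InertiaField.K0 A) (wu z) := fun z =>
    (II.bc_w hq (wAlg W) W.w_alpha W.w_beta wu H.w_al H.w_be z).symm
  have key := hH1_of (G.hyp_inertia A hq hA (M * q) M) hw _ hdvr
  have e : toBar (modularFunctionFieldFull (M * q)) (InertiaField.K0 A)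
      (LevelQ.xx (heckeAlphaBar (InertiaField.K0 A) M q) (heckeBetaBar (InertiaField.K0 A) M q)
        (D.xK (InertiaField.K0 A))) =
      heckeAlphaBar Kbar M q (D.xK Kbar) * heckeBetaBar Kbar M q (D.xK Kbar) := by
    rw [LevelQ.xx, map_mul]
    have h1 := LevelQ.Mod.baseChangeMap_al (M := M) (q := q)
      (algebraMap (InertiaField.K0 A) Kbar) (D.xK (InertiaField.K0 A))
    have h2 := LevelQ.Mod.baseChangeMap_be (M := M) (q := q)
      (algebraMap (InertiaField.K0 A) Kbar) (D.xK (InertiaField.K0 A))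
    rw [Export.baseChangeMap_xK] at h1 h2
    exact congrArg₂ (· * ·) h1 h2
  rw [e] at key
  exact key

end Fermat.Agent.S34.Nodal.Inst.Ur

end
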